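import Fermat.Agent.Red.ESTF.FrobSeries
import Fermat.Agent.Red.GV.Bar
import Fermat.Agent.Bridge.Frobenius
import Fermat.Agent.Bridge.Dict

/-!
# P-RED, R-ESTF (ii)+(iii): the Kronecker congruence in function form

`IfaceCongFrobenius N` from the expansion of the norm `Norm_α (β u)` as a product of `ℓ + 1`
conjugates (`NormBetaExpansion N`, part (i), helper44).
-/

set_option autoImplicit false

open ModularCurve AlgebraicCurve

noncomputable section

namespace Fermat.Agent.Red.ESTF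

open Fermat.Agent.S37 Fermat.Agent.Red.GV

/-! ## `CongOne` -/

section CongOne

variable {N : ℕ} (A : ValuationSubring Kbar)

/-- cancellation: `w₁ w₂ ≡ 1` and `w₁ ≡ 1` imply `w₂ ≡ 1` -/
theorem h76_congOne_cancel {w₁ w₂ : FF N} (h12 : CongOne A (w₁ * w₂)) (h1 : CongOne A w₁) :
    CongOne A w₂ := by
  obtain ⟨a, b, hb, hab, hr⟩ := h12
  obtain ⟨a', b', hb', hab', hr'⟩ := h1
  refine ⟨a * b', b * a', ?_, ?_, ?_⟩
  · rw [map_mul, hr']
    exact mul_ne_zero hb hb'
  · rw [map_mul, map_mul, hab, hab']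
    have e : ((w₁ * w₂ : FF N) : LaurentSeries Kbar)
        = (w₁ : LaurentSeries Kbar) * (w₂ : LaurentSeries Kbar) := rfl
    rw [e]
    ring
  · rw [map_mul, map_mul, hr, hr']

end CongOne

/-! ## Roots of unity of order `ℓ` reduce to `1` -/

section Roots

variable (A : ValuationSubring Kbar) {ℓ : ℕ}

theorem h76_root_mem (hℓ : ℓ ≠ 0) {ω : Kbar} (hω : ω ^ ℓ = 1) : ω ∈ A := by
  rcases A.mem_or_inv_mem ω with h | h
  · exact h
  · have e : ω = (ω⁻¹) ^ (ℓ - 1) := by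
      have hω0 : ω ≠ 0 := by
        rintro rfl
        rw [zero_pow hℓ] at hω
        exact zero_ne_one hω
      have h1 : ω ^ ℓ = ω ^ (ℓ - 1) * ω := by
        rw [← pow_succ, Nat.sub_add_cancel (Nat.pos_of_ne_zero hℓ)]
      rw [inv_pow]
      have h2 : ω ^ (ℓ - 1) * ω = 1 := by rw [← h1, hω]
      have h3 : ω ^ (ℓ - 1) ≠ 0 := pow_ne_zero _ hω0
      field_simp
      rw [mul_comm]
      exact h2.symm ▸ rfl
    rw [e]
    exact pow_mem h _

theorem h76_root_sub_one_mem_nonunits (hℓ : ℓ.Prime) (hA : A.LiesOverPrime ℓ) {ω : Kbar}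
    (hω : ω ^ ℓ = 1) : ω - 1 ∈ A.nonunits := by
  have : Fact ℓ.Prime := ⟨hℓ⟩
  have hπ := isResidueMap_residue A ℓ hA
  have : CharP (IsLocalRing.ResidueField A) ℓ := Base.h80_charP A _ ℓ hπ
  have hmem : ω ∈ A := h76_root_mem A hℓ.ne_zero hω
  have h1 : (IsLocalRing.residue A ⟨ω, hmem⟩) ^ ℓ = 1 := by
    rw [← map_pow]
    have : (⟨ω, hmem⟩ : A) ^ ℓ = 1 := Subtype.ext hω
    rw [this, map_one]
  have h2 : (IsLocalRing.residue A ⟨ω, hmem⟩ - 1) ^ ℓ = 0 := by
    rw [sub_pow_char, h1, one_pow, sub_self]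
  have h3 : IsLocalRing.residue A (⟨ω, hmem⟩ - 1) = 0 := by
    rw [map_sub, map_one]
    exact pow_eq_zero_iff (hℓ.ne_zero) |>.mp h2
  exact (hπ.ker_eq _).mp h3

end Roots

/-! ## Series computations -/

section Series

variable (A : ValuationSubring Kbar) {ℓ : ℕ}

/-- restriction to `A` of an automorphism preserving `A` -/
def h76_resA (τ : GQ) (hτ : ∀ x ∈ A, τ x ∈ A) : A →+* A :=
  (τ : Kbar →+* Kbar).restrict A A hτ

theorem h76_coe_resA (τ : GQ) (hτ : ∀ x ∈ A, τ x ∈ A) (a : A) :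
    ((h76_resA A τ hτ a : A) : Kbar) = τ (a : Kbar) := rfl

theorem h76_embA_resA (τ : GQ) (hτ : ∀ x ∈ A, τ x ∈ A) (y : LaurentSeries A) :
    embA A (coeffMap (h76_resA A τ hτ) y) = coeffMap (τ : Kbar →+* Kbar) (embA A y) := by
  ext n
  rfl

theorem h76_redA_eq_of_sub_mem (hA : A.LiesOverPrime ℓ) {a b : A}
    (h : ((a : Kbar) - (b : Kbar)) ∈ A.nonunits) :
    IsLocalRing.residue A a = IsLocalRing.residue A b := by
  have hπ := isResidueMap_residue A ℓ hA
  rw [← sub_eq_zero, ← map_sub]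
  exact (hπ.ker_eq _).mpr h

theorem h76_redA_resA_frob (hA : A.LiesOverPrime ℓ)
    [ExpChar (IsLocalRing.ResidueField A) ℓ] (σ : GQ) (hσ : A.IsFrobeniusAt σ ℓ)
    (hσA : ∀ x ∈ A, σ x ∈ A) (y : LaurentSeries A) :
    redA (IsLocalRing.residue A) (coeffMap (h76_resA A σ hσA) y)
      = coeffMap (frobenius (IsLocalRing.ResidueField A) ℓ) (redA (IsLocalRing.residue A) y) := by
  ext n
  show IsLocalRing.residue A (h76_resA A σ hσA (y.coeff n))
    = frobenius (IsLocalRing.ResidueField A) ℓ (IsLocalRing.residue A (y.coeff n))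
  rw [frobenius_def, ← map_pow]
  apply h76_redA_eq_of_sub_mem A hA
  exact Fermat.Agent.Bridge.frob_sub_pow_mem_nonunits hσ (y.coeff n).2

theorem h76_coeffMap_injective {R S : Type*} [CommRing R] [CommRing S] (f : R →+* S)
    (hf : Function.Injective f) : Function.Injective (coeffMap f) := by
  intro x y h
  ext n
  have h1 := congrArg (fun z => HahnSeries.coeff z n) h
  simp only [coeffMap_coeff] at h1
  exact hf h1

/-- the twisted series `y(ζ^b t)` has coefficients in `A` and the same reduction as `y` -/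
theorem h76_exists_twist (hℓ : ℓ.Prime) (hA : A.LiesOverPrime ℓ) {ω : Kbar} (hω : ω ^ ℓ = 1)
    (y : LaurentSeries A) (T : LaurentSeries Kbar)
    (hT : ∀ n, T.coeff n = ω ^ n * (embA A y).coeff n) :
    ∃ TA : LaurentSeries A, embA A TA = T ∧
      redA (IsLocalRing.residue A) TA = redA (IsLocalRing.residue A) y := by
  have hroot : ∀ n : ℤ, (ω ^ n) ^ ℓ = 1 := by
    intro n
    rw [← zpow_natCast, ← zpow_mul, mul_comm, zpow_mul, zpow_natCast, hω, one_zpow]
  have hmem : ∀ n, T.coeff n ∈ A := by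
    intro n
    rw [hT n]
    exact mul_mem (h76_root_mem A hℓ.ne_zero (hroot n)) (y.coeff n).2
  obtain ⟨TA, hTA⟩ := (exists_embA_eq_iff A T).mpr hmem
  refine ⟨TA, hTA, ?_⟩
  ext n
  show IsLocalRing.residue A (TA.coeff n) = IsLocalRing.residue A (y.coeff n)
  apply h76_redA_eq_of_sub_mem A hA
  have h1 : ((TA.coeff n : A) : Kbar) = ω ^ n * ((y.coeff n : A) : Kbar) := by
    have h2 := congrArg (fun z => HahnSeries.coeff z n) hTA
    simp only [h36_embA_coeff] at h2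
    rw [h2, hT n, h36_embA_coeff]
  rw [h1]
  have h3 : ω ^ n * ((y.coeff n : A) : Kbar) - ((y.coeff n : A) : Kbar)
      = (ω ^ n - 1) * ((y.coeff n : A) : Kbar) := by ring
  rw [h3]
  exact Fermat.Agent.Bridge.mul_mem_nonunits_left A
    (h76_root_sub_one_mem_nonunits A hℓ hA (hroot n)) (y.coeff n).2

/-- the series of the norm: coefficients in `A`, reduction `y(q^ℓ) · Frob(y)(q)` -/
theorem h76_norm_series (hℓ : ℓ.Prime) (hA : A.LiesOverPrime ℓ) [NeZero ℓ]
    [ExpChar (IsLocalRing.ResidueField A) ℓ] {ζ : Kbar} (hζ : ζ ^ ℓ = 1)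
    (y : LaurentSeries A) (X : LaurentSeries Kbar) (T : ℕ → LaurentSeries Kbar)
    (hT : ∀ b n, (T b).coeff n = (ζ ^ b) ^ n * (embA A y).coeff n)
    (hX : qExpand Kbar ℓ X = qExpand Kbar (ℓ * ℓ) (embA A y) * ∏ b ∈ Finset.range ℓ, T b) :
    ∃ a : LaurentSeries A, embA A a = X ∧
      redA (IsLocalRing.residue A) a
        = qExpand (IsLocalRing.ResidueField A) ℓ (redA (IsLocalRing.residue A) y)
          * coeffMap (frobenius (IsLocalRing.ResidueField A) ℓ)
              (redA (IsLocalRing.residue A) y) := by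
  have hex : ∀ b : ℕ, ∃ TA : LaurentSeries A, embA A TA = T b ∧
      redA (IsLocalRing.residue A) TA = redA (IsLocalRing.residue A) y := by
    intro b
    have hω : (ζ ^ b) ^ ℓ = 1 := by rw [← pow_mul, mul_comm, pow_mul, hζ, one_pow]
    exact h76_exists_twist A hℓ hA hω y (T b) (hT b)
  choose TA hTA hTAred using hex
  set P : LaurentSeries A := qExpand A (ℓ * ℓ) y * ∏ b ∈ Finset.range ℓ, TA b with hP
  have hembP : embA A P = qExpand Kbar ℓ X := by
    rw [hX, hP, map_mul, map_prod]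
    congr 1
    · exact coeffMap_qExpand A.subtype (ℓ * ℓ) y
    · exact Finset.prod_congr rfl fun b _ => hTA b
  have hmem : ∀ n, X.coeff n ∈ A := by
    intro n
    have h1 : X.coeff n = (qExpand Kbar ℓ X).coeff ((ℓ : ℤ) * n) := (qExpand_coeff_mul ℓ X n).symm
    rw [h1, ← hembP, h36_embA_coeff]
    exact (P.coeff _).2
  obtain ⟨a, ha⟩ := (exists_embA_eq_iff A X).mpr hmem
  refine ⟨a, ha, ?_⟩
  have haP : qExpand A ℓ a = P := by
    apply embA_injective A
    rw [hembP, ← ha]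
    exact coeffMap_qExpand A.subtype ℓ a
  have hredP : redA (IsLocalRing.residue A) P
      = qExpand (IsLocalRing.ResidueField A) ℓ
          (qExpand (IsLocalRing.ResidueField A) ℓ (redA (IsLocalRing.residue A) y)
            * coeffMap (frobenius (IsLocalRing.ResidueField A) ℓ)
                (redA (IsLocalRing.residue A) y)) := by
    rw [hP, map_mul, map_prod, map_mul, qExpand_qExpand, ← h76_pow_char_eq_qExpand]
    congr 1
    · exact coeffMap_qExpand (IsLocalRing.residue A) (ℓ * ℓ) y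
    · rw [Finset.prod_congr rfl fun b _ => hTAred b, Finset.prod_const, Finset.card_range]
  apply qExpand_injective (R := IsLocalRing.ResidueField A) ℓ
  rw [← hredP, ← haP]
  exact (coeffMap_qExpand (IsLocalRing.residue A) ℓ a).symm

/-- the series of the denominator `σ(y) · (σ⁻¹ y)^ℓ`: reduction `Frob(y)(q) · y(q^ℓ)` -/
theorem h76_den_series (hA : A.LiesOverPrime ℓ) [NeZero ℓ]
    [ExpChar (IsLocalRing.ResidueField A) ℓ] (σ : GQ) (hσ : A.IsFrobeniusAt σ ℓ)
    (y : LaurentSeries A) :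
    ∃ b : LaurentSeries A,
      embA A b = coeffMap (σ : Kbar →+* Kbar) (embA A y)
        * (coeffMap ((σ⁻¹ : GQ) : Kbar →+* Kbar) (embA A y)) ^ ℓ ∧
      redA (IsLocalRing.residue A) b
        = coeffMap (frobenius (IsLocalRing.ResidueField A) ℓ) (redA (IsLocalRing.residue A) y)
          * qExpand (IsLocalRing.ResidueField A) ℓ (redA (IsLocalRing.residue A) y) := by
  have hD := (Fermat.Agent.Bridge.memDecomp A σ).mp hσ.mem_decompositionSubgroup
  have hσA : ∀ x ∈ A, σ x ∈ A := fun x hx => (hD x).mpr hx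
  have hσiA : ∀ x ∈ A, (σ⁻¹ : GQ) x ∈ A := by
    intro x hx
    have h1 : σ ((σ⁻¹ : GQ) x) = x := σ.apply_symm_apply x
    exact (hD _).mp (by rw [h1]; exact hx)
  refine ⟨coeffMap (h76_resA A σ hσA) y * (coeffMap (h76_resA A σ⁻¹ hσiA) y) ^ ℓ, ?_, ?_⟩
  · rw [map_mul, map_pow, h76_embA_resA, h76_embA_resA]
  · have h2 : coeffMap (h76_resA A σ hσA) (coeffMap (h76_resA A σ⁻¹ hσiA) y) = y := by
      ext n
      show σ ((σ⁻¹ : GQ) ((y.coeff n : A) : Kbar)) = _
      exact σ.apply_symm_apply _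
    have h3 : (redA (IsLocalRing.residue A) (coeffMap (h76_resA A σ⁻¹ hσiA) y)) ^ ℓ
        = qExpand (IsLocalRing.ResidueField A) ℓ (redA (IsLocalRing.residue A) y) := by
      rw [h76_pow_char_eq_qExpand, ← h76_redA_resA_frob A hA σ hσ hσA, h2]
    rw [map_mul, map_pow, h76_redA_resA_frob A hA σ hσ hσA, h3]

end Series

/-! ## The Kronecker quotient -/

section Kron

variable (N ℓ : ℕ) [NeZero N] [NeZero ℓ]

/-- `Norm_α (β u)` -/
def normAB (u : FF N) : FF N :=
  letI := algebraAlong (heckeAlphaBar Kbar N ℓ)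
  Algebra.norm (FF N) (heckeBetaBar Kbar N ℓ u)

theorem normAB_mul (u v : FF N) : normAB N ℓ (u * v) = normAB N ℓ u * normAB N ℓ v := by
  unfold normAB
  rw [map_mul, map_mul]

/-- the Kronecker quotient `Norm_α (β u) / (σ u · (σ⁻¹ u)^ℓ)` -/
def kronW (σ : GQ) (u : FF N) : FF N :=
  normAB N ℓ u / ((gal N σ • u) * (gal N σ⁻¹ • u) ^ ℓ)

theorem kronW_mul (σ : GQ) (u v : FF N) :
    kronW N ℓ σ (u * v) = kronW N ℓ σ u * kronW N ℓ σ v := by
  unfold kronW
  rw [normAB_mul, smul_mul', smul_mul', mul_pow, div_mul_div_comm]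
  congr 1
  ring

end Kron

/-- **Part (i)** (helper44): the `q`-expansion of `Norm_α (β u)` in the variable
`t = q^(1/ℓ)` is `u(t^(ℓ²)) · ∏_b u(ζ^b t)`. -/
def NormBetaExpansion (N : ℕ) [NeZero N] : Prop :=
  ∀ (ℓ : ℕ) (hℓ : ℓ.Prime), ¬ ℓ ∣ N → ∀ ζ : Kbar, IsPrimitiveRoot ζ ℓ → ∀ u : FF N,
    haveI : NeZero ℓ := ⟨hℓ.ne_zero⟩
    ∃ T : ℕ → LaurentSeries Kbar,
      (∀ (b : ℕ) (n : ℤ), (T b).coeff n = (ζ ^ b) ^ n * (u : LaurentSeries Kbar).coeff n) ∧
      qExpand Kbar ℓ ((normAB N ℓ u : FF N) : LaurentSeries Kbar)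
        = qExpand Kbar (ℓ * ℓ) (u : LaurentSeries Kbar) * ∏ b ∈ Finset.range ℓ, T b

/-! ## The congruence -/

section Assembly

open Fermat.Agent.S28

variable {N : ℕ} [NeZero N]

/-- **Part (ii).**  The Kronecker congruence for a function with `A`-integral `q`-expansion and
nonzero reduction. -/
theorem h76_congOne_kronW_of_integral (hNorm : NormBetaExpansion N) {ℓ : ℕ} (hℓ : ℓ.Prime)
    (hℓN : ¬ ℓ ∣ N) (A : ValuationSubring Kbar) (hA : A.LiesOverPrime ℓ) (σ : GQ)
    (hσ : A.IsFrobeniusAt σ ℓ) (f : FF N) (y : LaurentSeries A)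
    (hy : embA A y = (f : LaurentSeries Kbar))
    (hy0 : redA (IsLocalRing.residue A) y ≠ 0) :
    haveI : NeZero ℓ := ⟨hℓ.ne_zero⟩
    CongOne A (kronW N ℓ σ f) := by
  have : NeZero ℓ := ⟨hℓ.ne_zero⟩
  have : Fact ℓ.Prime := ⟨hℓ⟩
  have hπ := isResidueMap_residue A ℓ hA
  have : CharP (IsLocalRing.ResidueField A) ℓ := Base.h80_charP A _ ℓ hπ
  have : ExpChar (IsLocalRing.ResidueField A) ℓ := ExpChar.prime hℓ
  obtain ⟨ζ, hζ⟩ := HasEnoughRootsOfUnity.exists_primitiveRoot Kbar ℓ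
  obtain ⟨T, hT, hX⟩ := hNorm ℓ hℓ hℓN ζ hζ f
  rw [← hy] at hT hX
  obtain ⟨a, ha, hared⟩ := h76_norm_series A hℓ hA hζ.pow_eq_one y _ T hT hX
  obtain ⟨b, hb, hbred⟩ := h76_den_series A hA σ hσ y
  have hf0 : f ≠ 0 := by
    rintro rfl
    apply hy0
    have h0 : y = 0 := embA_injective A (by rw [hy, map_zero]; rfl)
    rw [h0, map_zero]
  refine ⟨a, b, ?_, ?_, ?_⟩
  · show redA (IsLocalRing.residue A) b ≠ 0
    rw [hbred]
    refine mul_ne_zero ?_ ?_
    · intro h
      apply hy0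
      exact h76_coeffMap_injective _ (frobenius_inj _ ℓ) (by rw [h, map_zero])
    · intro h
      apply hy0
      exact qExpand_injective ℓ (by rw [h, map_zero])
  · show embA A a = _ * embA A b
    rw [ha, hb, hy]
    have hD : (gal N σ • f) * (gal N σ⁻¹ • f) ^ ℓ ≠ 0 := by
      refine mul_ne_zero ?_ (pow_ne_zero _ ?_)
      · exact (smul_ne_zero_iff_ne _).mpr hf0
      · exact (smul_ne_zero_iff_ne _).mpr hf0
    have e : kronW N ℓ σ f * ((gal N σ • f) * (gal N σ⁻¹ • f) ^ ℓ) = normAB N ℓ f :=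
      div_mul_cancel₀ _ hD
    have e2 := congrArg (fun z : FF N => (z : LaurentSeries Kbar)) e
    exact e2.symm
  · show redA (IsLocalRing.residue A) a = redA (IsLocalRing.residue A) b
    rw [hared, hbred, mul_comm]

/-- **R-ESTF (ii)+(iii).**  The Kronecker congruence in function form, from the expansion of
the norm as a product of conjugates. -/
theorem ifaceCongFrobenius_of (N : ℕ) [NeZero N] (hNorm : NormBetaExpansion N) :
    IfaceCongFrobenius N := by
  intro ℓ hℓ hℓN A hA σ hσ u hu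
  have : NeZero ℓ := ⟨hℓ.ne_zero⟩
  obtain ⟨c, hc, hV, hVinv⟩ := exists_cst_mul_unit A N hℓ hℓN hA u hu
  refine ⟨c, hc, ?_⟩
  have hu'0 : cst N c * u ≠ 0 := mul_ne_zero (by simpa using hc) hu
  obtain ⟨Q, hQ, y, hy⟩ := (mem_gaussV_iff A N (cst N c * u)).mp hV
  have hred : gaussR A N ⟨cst N c * u, hV⟩ ≠ 0 := by
    intro h
    rcases (gaussR_eq_zero_iff A N hℓ hℓN hA ⟨cst N c * u, hV⟩).mp h with h0 | h0
    · exact hu'0 h0
    · exact h0 hVinv
  have hspec := gaussRed_spec A (IsLocalRing.residue A) N ⟨cst N c * u, hV⟩ Q y hQ hy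
  have hy0 : redA (IsLocalRing.residue A) y ≠ 0 := by
    rw [← hspec]
    exact mul_ne_zero hred (evalC_jqModC_ne_zero _ _ hQ)
  have hgcoe : embA A (OTA_jA A Q) = ((evalF N A (jB N) Q : FF N) : LaurentSeries Kbar) := by
    rw [OTA_embA_jA, coe_evalF, coe_jB]
  have hg0 : redA (IsLocalRing.residue A) (OTA_jA A Q) ≠ 0 := by
    rw [OTA_redA_jA]
    exact evalC_jqModC_ne_zero _ _ hQ
  have hfcoe : embA A y
      = ((evalF N A (jB N) Q * (cst N c * u) : FF N) : LaurentSeries Kbar) := by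
    rw [hy, ← OTA_embA_jA, hgcoe]
    rfl
  have h1 := h76_congOne_kronW_of_integral hNorm hℓ hℓN A hA σ hσ _ y hfcoe hy0
  have h2 := h76_congOne_kronW_of_integral hNorm hℓ hℓN A hA σ hσ _ (OTA_jA A Q) hgcoe hg0
  rw [kronW_mul] at h1
  exact h76_congOne_cancel A h1 h2

end Assembly

end Fermat.Agent.Red.ESTF
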