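import Mathlib
import Fermat.Prelude.Def_ModularCurve_X0ModL
import Fermat.Prelude.Thm_ModularCurve_coeffMap_qExpand

/-!
# P-RED, R-ESTF (ii): the `ℓ`-th power map on Laurent series in characteristic `ℓ`

`x ^ ℓ = (Frob x)(q ^ ℓ)` for `x ∈ k((q))`, `k` a commutative ring of characteristic `ℓ`:
`h76_pow_char_eq_qExpand`.
-/

set_option autoImplicit false

open ModularCurve

noncomputable section

namespace Fermat.Agent.Red.ESTF

variable {R : Type*} [CommRing R]

/-- `q ↦ q ^ n` on power series, inside Laurent series -/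
theorem h76_qExpand_ofPowerSeries (n : ℕ) [NeZero n] (p : PowerSeries R) :
    qExpand R n (HahnSeries.ofPowerSeries ℤ R p)
      = HahnSeries.ofPowerSeries ℤ R (PowerSeries.expand n (NeZero.ne n) p) := by
  ext m
  by_cases hm : (n : ℤ) ∣ m
  · obtain ⟨j, rfl⟩ := hm
    rw [qExpand_coeff_mul]
    rcases le_or_gt 0 j with hj | hj
    · lift j to ℕ using hj
      have e : (n : ℤ) * (j : ℤ) = ((n * j : ℕ) : ℤ) := by push_cast; ring
      rw [e, HahnSeries.ofPowerSeries_apply_coeff, HahnSeries.ofPowerSeries_apply_coeff,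
        PowerSeries.coeff_expand_mul]
    · have hn : (0 : ℤ) < n := by exact_mod_cast Nat.pos_of_ne_zero (NeZero.ne n)
      rw [ofPowerSeries_coeff_of_neg _ hj, ofPowerSeries_coeff_of_neg _ (mul_neg_of_pos_of_neg hn hj)]
  · rw [qExpand_coeff_of_not_dvd n _ hm]
    rcases le_or_gt 0 m with hm0 | hm0
    · lift m to ℕ using hm0
      rw [HahnSeries.ofPowerSeries_apply_coeff, PowerSeries.coeff_expand_of_not_dvd]
      intro h
      exact hm (by exact_mod_cast h)
    · rw [ofPowerSeries_coeff_of_neg _ hm0]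

/-- the `ℓ`-th power of a power series in characteristic `ℓ` -/
theorem h76_powerSeries_pow_char (ℓ : ℕ) [ExpChar R ℓ] (hℓ : ℓ ≠ 0) (p : PowerSeries R) :
    p ^ ℓ = PowerSeries.expand ℓ hℓ (PowerSeries.map (frobenius R ℓ) p) := by
  rw [← PowerSeries.map_expand]
  exact (MvPowerSeries.map_frobenius_expand ℓ hℓ (f := p)).symm

/-- **Freshman's dream for Laurent series.** -/
theorem h76_pow_char_eq_qExpand (ℓ : ℕ) [NeZero ℓ] [ExpChar R ℓ] (x : LaurentSeries R) :
    x ^ ℓ = qExpand R ℓ (coeffMap (frobenius R ℓ) x) := by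
  have hx := LaurentSeries.single_order_mul_powerSeriesPart x
  set s : LaurentSeries R := HahnSeries.single (HahnSeries.order x) (1 : R) with hs
  set p : PowerSeries R := LaurentSeries.powerSeriesPart x with hp
  have h1 : s ^ ℓ = qExpand R ℓ (coeffMap (frobenius R ℓ) s) := by
    rw [hs, coeffMap_single, qExpand_single, HahnSeries.single_pow, one_pow,
      RingHom.map_one, nsmul_eq_mul]
  have h2 : (HahnSeries.ofPowerSeries ℤ R p) ^ ℓ
      = qExpand R ℓ (coeffMap (frobenius R ℓ) (HahnSeries.ofPowerSeries ℤ R p)) := by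
    rw [coeffMap_ofPowerSeries, h76_qExpand_ofPowerSeries,
      ← h76_powerSeries_pow_char ℓ (NeZero.ne ℓ), map_pow]
  rw [← hx, mul_pow, map_mul, map_mul, h1, h2]

end Fermat.Agent.Red.ESTF
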