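import Fermat.Agent.Red.ESTF.Cong
import Fermat.Agent.Red.Kron.Norm

/-!
# P-RED, R-ESTF: `IfaceCongFrobenius N` (unconditional)

The Kronecker congruence in function form: for a Frobenius `σ` at `A` over `ℓ ∤ N`, every
nonzero `u ∈ F_N` can be scaled so that `Norm_α (β u) / (σ u · (σ⁻¹ u) ^ ℓ) ≡ 1`.

Part (i) (the expansion of the norm) is `Fermat.Agent.Red.Kron.norm_beta_eq` (helper44);
parts (ii)+(iii) are `Fermat.Agent.Red.ESTF.ifaceCongFrobenius_of`.
-/

set_option autoImplicit false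

open ModularCurve AlgebraicCurve

noncomputable section

namespace Fermat.Agent.Red.ESTF

open Fermat.Agent.S37

/-- part (i) in the shape consumed by `ifaceCongFrobenius_of` -/
theorem normBetaExpansion (N : ℕ) [NeZero N] : NormBetaExpansion N := by
  intro ℓ hℓ hℓN ζ hζ u
  have : NeZero ℓ := ⟨hℓ.ne_zero⟩
  refine ⟨fun b => Fermat.Agent.Red.Kron.twistK (ζ ^ b) (u : LaurentSeries Kbar),
    fun b n => ?_, ?_⟩
  · rw [Fermat.Agent.Red.Kron.coeff_twistK, mul_comm]
  · exact Fermat.Agent.Red.Kron.norm_beta_eq N ℓ hℓ hℓN ζ hζ u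

/-- **R-ESTF.**  The Kronecker congruence in function form. -/
theorem ifaceCongFrobenius (N : ℕ) [NeZero N] : IfaceCongFrobenius N :=
  ifaceCongFrobenius_of N (normBetaExpansion N)

end Fermat.Agent.Red.ESTF
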